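import Mathlib
import Fermat.Agent.LT.T2.H175.TauSpec
import Fermat.Agent.LT.T2.H981.ConvAdjT

/-!
# Row LT, tower T2, leaf T2.22c `LeafT02c175` (helper887), OFF-MAIN

Registry row 1345 (cut of helper175, `LT/T2/H175/TauSpec.lean`, sha256 da27a6e8).

The adjoint of `conv R.F f` on the automorphic functions of the class `(𝔫, τ, r)` is
`conv R.F (adj f)`.  This is the asset `convAdjT_981` of helper981
(`LT/T2/H981/ConvAdjT.lean`, origin/helper981@b544b5bf4: core `convAdj_core981` with the ray
generator as the central element, `ray_central981`, `ray_nrm981`), vendored byte-identical; the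
hypotheses `𝔫 ≠ ⊥` and `IsKType τ` of the leaf are not needed.
-/

set_option autoImplicit false

open IsDedekindDomain NumberField

noncomputable section

namespace Fermat.Agent.LT.T2.H887

/-- **T2.22c `LeafT02c175`**, VERBATIM, from `convAdjT_981`. -/
theorem leafT02c887 (K : Type) [Field K] [NumberField K] :
    Fermat.Agent.LT.T2.H175.LeafT02c175 K :=
  fun hT1 𝔫 τ _ _ R f φ ψ hf hφ hψ =>
    Fermat.Agent.LT.T2.H981.convAdjT_981 hT1 𝔫 τ R f φ ψ hf hφ hψ

end Fermat.Agent.LT.T2.H887

end
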