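import Mathlib
import Fermat.Agent.LT.T2.H291.OpsSpecT
import Fermat.Agent.LT.T2.H756.HeckeLocal
import Fermat.Agent.LT.T2.H981.ConvAdjT

/-!
# Row LT, tower T2, sub-leaf T2.27.04 `SubHeckeAdjT291` (helper887): `T_v* = S_v⁻¹ T_v`, `T`-form

OFF-MAIN.  Registry row 1389.  Sub-spec: `LT/T2/H291/OpsSpecT.lean` (helper291, sha256 c8359c85).

Port of the proof of T2.07.04 (helper756, `LT/T2/H756/HeckeAdj.lean`, origin/helper756@4772700e0)
to the class `IsCuspT 𝔫 τ r`: the local algebra `LT/T2/H756/HeckeLocal.lean` is used VERBATIM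
(vendored byte-identical); the invariance under the positive scalars is replaced by the invariance
under the ray generator `r`, which is central (`ray_central981`, helper981).

* `pairAt887 F φ ψ a b = ∫_D φ(g a) conj ψ(g b) dμ(g)`; `pairAt_transl887`: it is invariant under
  `(a, b) ↦ (h a, h b)` (the KEY LEMMA `SubTranslT291`, a HYPOTHESIS here);
* `heckeAdjT_core887`: `⟨T_H φ, ψ⟩ = ⟨φ, S_z⁻¹ T_H ψ⟩` on the class, level prime to `v`;
* `subHeckeAdjT_of_transl887 : SubTranslT291 K → SubHeckeAdjT291 K`.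
-/

set_option autoImplicit false

open IsDedekindDomain NumberField MeasureTheory
open Fermat.Agent.LT.H556.A0 Fermat.Agent.LT.H129 Fermat.Agent.LT.T2

noncomputable section

namespace Fermat.Agent.LT.T2.H887

variable {K : Type} [Field K] [NumberField K]

attribute [local instance] Fermat.Agent.LT.T2.borelG

open scoped Classical

theorem borelSpaceG887 : BorelSpace (G K) := ⟨rfl⟩

/-- `∫_D φ(g a) conj ψ(g b) dμ(g)`. -/
def pairAt887 (F : Frame K) (φ ψ : G K → ℂ) (a b : G K) : ℂ :=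
  ∫ g in F.D, φ (g * a) * (starRingEnd ℂ) (ψ (g * b)) ∂F.μ

theorem integrableOn_pairAt887 (F : Frame K) {φ ψ : G K → ℂ} (hφ : Continuous φ)
    (hψ : Continuous ψ) (bφ : ∃ C : ℝ, ∀ g : G K, ‖φ g‖ ≤ C)
    (bψ : ∃ C : ℝ, ∀ g : G K, ‖ψ g‖ ≤ C) (a b : G K) :
    IntegrableOn (fun g => φ (g * a) * (starRingEnd ℂ) (ψ (g * b))) F.D F.μ := by
  have : BorelSpace (G K) := borelSpaceG887
  obtain ⟨C₁, h₁⟩ := bφ
  obtain ⟨C₂, h₂⟩ := bψ
  have hc : Continuous (fun g => φ (g * a) * (starRingEnd ℂ) (ψ (g * b))) :=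
    (hφ.comp (continuous_mul_const a)).mul
      (Complex.continuous_conj.comp (hψ.comp (continuous_mul_const b)))
  refine Measure.integrableOn_of_bounded F.fin.ne hc.aestronglyMeasurable (M := C₁ * C₂)
    (ae_of_all _ fun g => ?_)
  rw [norm_mul, RCLike.norm_conj]
  exact mul_le_mul (h₁ _) (h₂ _) (norm_nonneg _) ((norm_nonneg _).trans (h₁ 1))

/-- The KEY LEMMA in the form used here: `(a, b) ↦ (h a, h b)` does not change `pairAt887`. -/
theorem pairAt_transl887 (hT : H291.SubTranslT291 K) (hT1 : T1.T1Out K) (R : FrameR K)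
    {𝔫 : Ideal (𝓞 K)} {τ : G K → ℂ} {φ ψ : G K → ℂ} (hφ : IsCuspT 𝔫 τ R.r φ)
    (hψ : IsCuspT 𝔫 τ R.r ψ) (h a b : G K) :
    pairAt887 R.F φ ψ (h * a) (h * b) = pairAt887 R.F φ ψ a b := by
  have key := hT hT1 R (fun g => φ (g * a) * (starRingEnd ℂ) (ψ (g * b)))
    (fun γ g => by
      show φ (T1.ratG K γ * g * a) * (starRingEnd ℂ) (ψ (T1.ratG K γ * g * b)) = _
      rw [mul_assoc, mul_assoc]
      have e1 : φ (T1.ratG K γ * (g * a)) = φ (g * a) := hφ.aut.left_inv γ (g * a)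
      have e2 : ψ (T1.ratG K γ * (g * b)) = ψ (g * b) := hψ.aut.left_inv γ (g * b)
      rw [e1, e2])
    (fun g => by
      show φ (g * R.r * a) * (starRingEnd ℂ) (ψ (g * R.r * b)) = _
      have e1 : g * R.r * a = g * a * R.r := by
        rw [mul_assoc, H981.ray_central981 R.ray a, mul_assoc]
      have e2 : g * R.r * b = g * b * R.r := by
        rw [mul_assoc, H981.ray_central981 R.ray b, mul_assoc]
      rw [e1, e2, hφ.aut.ray, hψ.aut.ray]) h
  unfold pairAt887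
  simp only [mul_assoc] at key ⊢
  exact key

theorem isLocalMaxCptAt_inv887 {v : HeightOneSpectrum (𝓞 K)} {u : G K}
    (hu : IsLocalMaxCptAt129 v u) : IsLocalMaxCptAt129 v u⁻¹ :=
  ⟨isLocalAtFin_inv129 hu.1, hu.2.2, by rw [inv_inv]; exact hu.2.1⟩

/-- **`T_v* = S_v⁻¹ T_v`** on the cusp functions of the class `(𝔫, τ, r)`, level prime to `v`,
from the KEY LEMMA. -/
theorem heckeAdjT_core887 (hT : H291.SubTranslT291 K) (hT1 : T1.T1Out K) (R : FrameR K)
    {𝔫 : Ideal (𝓞 K)} {τ : G K → ℂ} {v : HeightOneSpectrum (𝓞 K)} (hv : ¬ v.asIdeal ∣ 𝔫)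
    {H : Finset (G K)} (hH : IsHeckeCosetSystem v H) {z : G K}
    (hz : IsScalarUniformizerAt v z) {φ ψ : G K → ℂ} (hφ : IsCuspT 𝔫 τ R.r φ)
    (hψ : IsCuspT 𝔫 τ R.r ψ) :
    pair R.F (heckeSum H φ) ψ = pair R.F φ (shift z⁻¹ (heckeSum H ψ)) := by
  -- the function `B`
  have hr : ∀ u : G K, IsLocalMaxCptAt129 v u → ∀ g : G K,
      pairAt887 R.F φ ψ (g * u) 1 = pairAt887 R.F φ ψ g 1 := by
    intro u hu g
    unfold pairAt887
    have e : ∀ x : G K, φ (x * (g * u)) = φ (x * g) := fun x => by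
      rw [← mul_assoc]
      exact hφ.aut.level_inv u (inLevelGroup_of_localMaxCpt129 hv hu) (x * g)
    simp only [e]
  have hl : ∀ u : G K, IsLocalMaxCptAt129 v u → ∀ g : G K,
      pairAt887 R.F φ ψ (u * g) 1 = pairAt887 R.F φ ψ g 1 := by
    intro u hu g
    have h1 : pairAt887 R.F φ ψ (u * g) 1 = pairAt887 R.F φ ψ (u * g) (u * u⁻¹) := by
      rw [mul_inv_cancel]
    rw [h1, pairAt_transl887 hT hT1 R hφ hψ]
    unfold pairAt887
    have e : ∀ x : G K, ψ (x * u⁻¹) = ψ (x * 1) := fun x => by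
      rw [mul_one]
      exact hψ.aut.level_inv u⁻¹
        (inLevelGroup_of_localMaxCpt129 hv (isLocalMaxCptAt_inv887 hu)) x
    simp only [e]
  -- the left side
  have hL : pair R.F (heckeSum H φ) ψ = ∑ h ∈ H, pairAt887 R.F φ ψ h 1 := by
    unfold pair heckeSum pairAt887
    simp only [Finset.sum_mul, mul_one]
    exact integral_finsetSum H fun h _ => by
      have : Integrable (fun g => φ (g * h) * (starRingEnd ℂ) (ψ (g * 1)))
          (R.F.μ.restrict R.F.D) :=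
        integrableOn_pairAt887 R.F hφ.aut.cont hψ.aut.cont hφ.aut.bdd hψ.aut.bdd h 1
      simpa only [mul_one] using this
  -- the right side
  have hR : pair R.F φ (shift z⁻¹ (heckeSum H ψ))
      = ∑ h ∈ H, pairAt887 R.F φ ψ 1 (z⁻¹ * h) := by
    unfold pair shift heckeSum pairAt887
    simp only [map_sum, Finset.mul_sum, mul_one, mul_assoc]
    exact integral_finsetSum H fun h _ => by
      have : Integrable (fun g => φ (g * 1) * (starRingEnd ℂ) (ψ (g * (z⁻¹ * h))))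
          (R.F.μ.restrict R.F.D) :=
        integrableOn_pairAt887 R.F hφ.aut.cont hψ.aut.cont hφ.aut.bdd hψ.aut.bdd 1 (z⁻¹ * h)
      simpa only [mul_one] using this
  rw [hL, hR]
  refine Finset.sum_congr rfl fun h hh => ?_
  have h1 : pairAt887 R.F φ ψ 1 (z⁻¹ * h)
      = pairAt887 R.F φ ψ ((z⁻¹ * h) * (h⁻¹ * z)) ((z⁻¹ * h) * 1) := by
    have e : (z⁻¹ * h) * (h⁻¹ * z) = 1 := by group
    rw [e, mul_one]
  rw [h1, pairAt_transl887 hT hT1 R hφ hψ]
  exact (H756.biInv_eq756 (fun g => pairAt887 R.F φ ψ g 1) hl hr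
    (H756.isHeckeAt_of_mem756 hH hh) hz).symm

/-- **T2.27.04** from the KEY LEMMA T2.27.00. -/
theorem subHeckeAdjT_of_transl887 (hT : H291.SubTranslT291 K) : H291.SubHeckeAdjT291 K :=
  fun _ _ c R _ hv _ hH _ hz _ _ hφ hψ => heckeAdjT_core887 hT c.t1 R hv hH hz hφ hψ

end Fermat.Agent.LT.T2.H887

end
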